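import Fermat.Agent.H14.FFF.Interfaces

/-!
# P-FF / FF-F3 (row 671): the generator bound   (helper30)

A finite abelian group killed by `p ^ n` whose `p`-torsion has at most `μ` elements is generated
by `μ` elements: `#(M / p M) = #M[p] ≤ μ`, representatives of the classes of `M / p M` generate
`M` modulo `p M`, hence modulo `p ^ k M` for every `k`, hence `M`.
-/

set_option autoImplicit false

namespace Fermat.Agent.H30.FF

section

variable {M : Type} [AddCommGroup M]

/-- Multiplication by `p` as an additive endomorphism. -/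
def mulP (M : Type) [AddCommGroup M] (p : ℕ) : M →+ M := nsmulAddMonoidHom p

@[simp] lemma mulP_apply (p : ℕ) (x : M) : mulP M p x = p • x := rfl

/-- `#(M / p M) = #M[p]` for a finite abelian group. -/
lemma card_quotient_range_mulP [Finite M] (p : ℕ) :
    Nat.card (M ⧸ (mulP M p).range) = Nat.card {x : M // p • x = 0} := by
  have h1 : Nat.card (M ⧸ (mulP M p).ker) * Nat.card (mulP M p).ker = Nat.card M :=
    (AddSubgroup.card_eq_card_quotient_mul_card_addSubgroup _).symm
  have h2 : Nat.card (M ⧸ (mulP M p).range) * Nat.card (mulP M p).range = Nat.card M :=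
    (AddSubgroup.card_eq_card_quotient_mul_card_addSubgroup _).symm
  have h3 : Nat.card (M ⧸ (mulP M p).ker) = Nat.card (mulP M p).range :=
    Nat.card_congr (QuotientAddGroup.quotientKerEquivRange (mulP M p)).toEquiv
  have h4 : Nat.card (mulP M p).ker = Nat.card {x : M // p • x = 0} :=
    Nat.card_congr (Equiv.subtypeEquivRight fun x => by
      rw [AddMonoidHom.mem_ker, mulP_apply])
  have hpos : 0 < Nat.card (mulP M p).range := Nat.card_pos
  rw [h3] at h1
  rw [← h4]
  have : Nat.card (M ⧸ (mulP M p).range) * Nat.card (mulP M p).range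
      = Nat.card (mulP M p).ker * Nat.card (mulP M p).range := by
    rw [h2, mul_comm, h1]
  exact Nat.eq_of_mul_eq_mul_right hpos this

end

/-- **FF-F3** The generator bound. -/
theorem generatorBound : Fermat.Agent.H14.FFF.GeneratorBoundStatement := by
  intro p _ M _ _ n μ hn hμ
  classical
  rw [← card_quotient_range_mulP] at hμ
  -- a surjection `Fin μ → M / p M`
  have hfin : Finite (M ⧸ (mulP M p).range) := inferInstance
  have hemb : Nonempty ((M ⧸ (mulP M p).range) ↪ Fin μ) := by
    have : Fintype (M ⧸ (mulP M p).range) := Fintype.ofFinite _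
    apply Function.Embedding.nonempty_of_card_le
    rw [Fintype.card_fin, ← Nat.card_eq_fintype_card]
    exact hμ
  obtain ⟨e⟩ := hemb
  have hg : Function.Surjective (Function.invFun e) := Function.invFun_surjective e.injective
  refine ⟨fun i => (Function.invFun e i).out, ?_⟩
  set W : Submodule ℤ M := Submodule.span ℤ (Set.range fun i => (Function.invFun e i).out) with hW
  -- `M = W + p M`
  have h1 : ∀ x : M, ∃ w ∈ W, ∃ y : M, x = w + p • y := by
    intro x
    obtain ⟨i, hi⟩ := hg (QuotientAddGroup.mk x)
    have hmem : -(Function.invFun e i).out + x ∈ (mulP M p).range := by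
      rw [← QuotientAddGroup.eq, QuotientAddGroup.out_eq', hi]
    obtain ⟨y, hy⟩ := hmem
    refine ⟨(Function.invFun e i).out, Submodule.subset_span ⟨i, rfl⟩, y, ?_⟩
    rw [mulP_apply] at hy
    rw [hy]
    abel
  -- `M = W + p ^ k M`
  have h2 : ∀ k : ℕ, ∀ x : M, ∃ w ∈ W, ∃ y : M, x = w + p ^ k • y := by
    intro k
    induction k with
    | zero => exact fun x => ⟨0, W.zero_mem, x, by simp⟩
    | succ k ih =>
      intro x
      obtain ⟨w, hw, y, rfl⟩ := ih x
      obtain ⟨w', hw', y', rfl⟩ := h1 y
      refine ⟨w + p ^ k • w', W.add_mem hw ?_, y', ?_⟩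
      · have : p ^ k • w' = ((p ^ k : ℕ) : ℤ) • w' := by
          rw [Nat.cast_smul_eq_nsmul]
        rw [this]
        exact W.smul_mem _ hw'
      · rw [smul_add, pow_succ, mul_smul, add_assoc]
  rw [eq_top_iff]
  intro x _
  obtain ⟨w, hw, y, rfl⟩ := h2 n x
  rw [hn y, add_zero]
  exact hw

end Fermat.Agent.H30.FF
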